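import Fermat.Agent.S13.H129.AtTwoFrey
import Fermat.Agent.S13.Skel
import Fermat.Agent.S54.FrobExists

/-!
# S13, piece T4 in the frozen interface shape of `Fermat.Agent.S13.Skel.result_of_parts`
-/

set_option autoImplicit false

namespace Fermat.Agent.S13.H129

open WeierstrassCurve WeierstrassCurve.Affine WeierstrassCurve.Affine.Point

/-- **T4 (for every place over `2`).** -/
theorem T4_forall (P : FreyPackage) (A : ValuationSubring (AlgebraicClosure ℚ))
    (hA : A.LiesOverPrime 2) :
    ∀ σ ∈ A.inertiaSubgroupIn ℚ, ∀ x : Skel.Vp P, σ • (σ • x - x) = σ • x - x :=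
  fun σ hσ x => frey_inertia_two_unipotent_Qbar P A hA σ hσ x

/-- **T4**, exactly the hypothesis `hT4` of `Skel.result_of_parts`. -/
theorem T4 (P : FreyPackage) :
    ∃ A : ValuationSubring (AlgebraicClosure ℚ), A.LiesOverPrime 2 ∧
      ∀ σ ∈ A.inertiaSubgroupIn ℚ, ∀ x : Skel.Vp P, σ • (σ • x - x) = σ • x - x := by
  obtain ⟨A, hA⟩ := Fermat.Agent.S54.exists_valuationSubring_liesOver 2 Nat.prime_two
  exact ⟨A, hA, T4_forall P A hA⟩

end Fermat.Agent.S13.H129
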