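import Fermat.Agent.S13.H129.AtTwo
import Fermat.Prelude.Def_FLTPrelim_Ramification
import Mathlib.FieldTheory.Minpoly.Field
import Mathlib.RingTheory.Algebraic.Basic
import Mathlib.FieldTheory.IsAlgClosed.AlgebraicClosure

/-!
# S13, piece T4: inertia at `2` acts unipotently on the `p`-torsion of the Frey curve

For every valuation subring `A` of `AlgebraicClosure ℚ` lying over `2`, every
`σ ∈ A.inertiaSubgroupIn ℚ` and every `p`-torsion point `x` of the Frey curve,
`σ • (σ • x - x) = σ • x - x`.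

The inertia/valuation lemmas of the first sections follow `Fermat.Agent.S05.Inertia`
(helper725); they are restated here so that this file only depends on modules already on main.
-/

set_option autoImplicit false
set_option linter.unusedSectionVars false
set_option linter.unusedVariables false

namespace Fermat.Agent.S13.H129

open ValuationSubring
open scoped Pointwise

section inertia

variable {K : Type*} [Field K] {L : Type*} [Field L] [Algebra K L]

theorem mem_inertiaSubgroupIn_iff (A : ValuationSubring L) (σ : L ≃ₐ[K] L) :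
    σ ∈ A.inertiaSubgroupIn K ↔
      ∃ h : σ ∈ A.decompositionSubgroup K,
        (⟨σ, h⟩ : A.decompositionSubgroup K) ∈ A.inertiaSubgroup K := by
  unfold ValuationSubring.inertiaSubgroupIn
  constructor
  · rintro ⟨τ, hτ, rfl⟩
    exact ⟨τ.2, hτ⟩
  · rintro ⟨h, hσ⟩
    exact ⟨⟨σ, h⟩, hσ, rfl⟩

theorem mem_decomp_of_mem_inertia {A : ValuationSubring L} {σ : L ≃ₐ[K] L}
    (hσ : σ ∈ A.inertiaSubgroupIn K) : σ ∈ A.decompositionSubgroup K :=
  ((mem_inertiaSubgroupIn_iff A σ).1 hσ).1

theorem apply_mem_of_mem_decomp {A : ValuationSubring L} {σ : L ≃ₐ[K] L}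
    (hσ : σ ∈ A.decompositionSubgroup K) {t : L} (ht : t ∈ A) : σ t ∈ A := by
  have h1 : σ • t ∈ σ • A := ValuationSubring.smul_mem_pointwise_smul σ t A ht
  have h2 : σ • A = A := hσ
  rw [h2] at h1
  exact h1

theorem apply_mem_iff_of_mem_decomp {A : ValuationSubring L} {σ : L ≃ₐ[K] L}
    (hσ : σ ∈ A.decompositionSubgroup K) {t : L} : σ t ∈ A ↔ t ∈ A := by
  constructor
  · intro h
    have h2 : σ⁻¹ ∈ A.decompositionSubgroup K := inv_mem hσ
    have := apply_mem_of_mem_decomp h2 h
    simpa using this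
  · exact apply_mem_of_mem_decomp hσ

/-- the key property of inertia: `σ t - t` lies in the maximal ideal for `t ∈ A`. -/
theorem apply_sub_mem_nonunits_of_mem_inertia {A : ValuationSubring L} {σ : L ≃ₐ[K] L}
    (hσ : σ ∈ A.inertiaSubgroupIn K) {t : L} (ht : t ∈ A) : σ t - t ∈ A.nonunits := by
  obtain ⟨h, hker⟩ := (mem_inertiaSubgroupIn_iff A σ).1 hσ
  have hmem : σ t ∈ A := apply_mem_of_mem_decomp h ht
  rw [ValuationSubring.mem_nonunits_iff_exists_mem_maximalIdeal]
  refine ⟨A.sub_mem hmem ht, ?_⟩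
  have h1 : MulSemiringAction.toRingAut (A.decompositionSubgroup K)
      (IsLocalRing.ResidueField A) ⟨σ, h⟩ = 1 := hker
  have h2 : (⟨σ, h⟩ : A.decompositionSubgroup K) • (IsLocalRing.residue A ⟨t, ht⟩) =
      IsLocalRing.residue A ⟨t, ht⟩ := by
    have := congrArg (fun f => f (IsLocalRing.residue A ⟨t, ht⟩)) h1
    simpa using this
  rw [← IsLocalRing.ResidueField.residue_smul] at h2
  have h3 : ((⟨σ, h⟩ : A.decompositionSubgroup K) • (⟨t, ht⟩ : A)) = ⟨σ t, hmem⟩ := rfl
  rw [h3] at h2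
  have h4 : IsLocalRing.residue A (⟨σ t, hmem⟩ - ⟨t, ht⟩) = 0 := by
    rw [map_sub, h2, sub_self]
  exact (IsLocalRing.residue_eq_zero_iff _).1 h4

theorem valuation_apply_sub_lt_one {A : ValuationSubring L} {σ : L ≃ₐ[K] L}
    (hσ : σ ∈ A.inertiaSubgroupIn K) {t : L} (ht : A.valuation t ≤ 1) :
    A.valuation (σ t - t) < 1 :=
  A.mem_nonunits_iff.1
    (apply_sub_mem_nonunits_of_mem_inertia hσ ((A.valuation_le_one_iff t).1 ht))

/-- every automorphism has finite order on an algebraic element. -/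
theorem exists_pow_apply_eq_self (σ : L ≃ₐ[K] L) {x : L} (hx : IsAlgebraic K x) :
    ∃ n : ℕ, 0 < n ∧ (σ ^ n) x = x := by
  have hint : IsIntegral K x := hx.isIntegral
  have hfin : ((minpoly K x).rootSet L).Finite := Polynomial.rootSet_finite _ _
  have hmem : ∀ k : ℕ, (σ ^ k) x ∈ (minpoly K x).rootSet L := by
    intro k
    rw [Polynomial.mem_rootSet]
    refine ⟨minpoly.ne_zero hint, ?_⟩
    have : Polynomial.aeval ((σ ^ k) x) (minpoly K x) =
        (σ ^ k) (Polynomial.aeval x (minpoly K x)) := by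
      exact Polynomial.aeval_algHom_apply ((σ ^ k : L ≃ₐ[K] L) : L →ₐ[K] L) x (minpoly K x)
    rw [this, minpoly.aeval, map_zero]
  obtain ⟨i, j, hij, heq⟩ : ∃ i j : ℕ, i ≠ j ∧ (σ ^ i) x = (σ ^ j) x := by
    by_contra hcon
    push Not at hcon
    have hinj : Function.Injective (fun k : ℕ => (σ ^ k) x) := by
      intro i j h
      by_contra hne
      exact hcon i j hne h
    have : (Set.range (fun k : ℕ => (σ ^ k) x)).Infinite := Set.infinite_range_of_injective hinj
    apply this
    apply hfin.subset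
    rintro _ ⟨k, rfl⟩
    exact hmem k
  wlog hlt : i < j generalizing i j
  · exact this j i hij.symm heq.symm (lt_of_le_of_ne (not_lt.1 hlt) hij.symm)
  refine ⟨j - i, Nat.sub_pos_of_lt hlt, ?_⟩
  have hj : j = (j - i) + i := by omega
  rw [hj, pow_add] at heq
  have h2 : (σ ^ i) x = (σ ^ i) ((σ ^ (j - i)) x) := by
    rw [heq]
    have hc : σ ^ (j - i) * σ ^ i = σ ^ i * σ ^ (j - i) := by
      rw [← pow_add, ← pow_add, add_comm]
    rw [hc]
    rfl
  exact ((σ ^ i).injective h2).symm

theorem apply_mem_nonunits_of_mem_decomp {A : ValuationSubring L} {σ : L ≃ₐ[K] L}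
    (hσ : σ ∈ A.decompositionSubgroup K) {t : L} (ht : t ∈ A.nonunits) : σ t ∈ A.nonunits := by
  rw [ValuationSubring.mem_nonunits_iff_or] at ht ⊢
  rcases ht with h | h
  · left; rw [h, map_zero]
  · right
    rw [← map_inv₀]
    rwa [apply_mem_iff_of_mem_decomp hσ]

theorem valuation_apply_le_of_mem_decomp {A : ValuationSubring L}
    {σ : L ≃ₐ[K] L} (hσ : σ ∈ A.decompositionSubgroup K) {x : L} (hxa : IsAlgebraic K x) :
    A.valuation (σ x) ≤ A.valuation x := by
  by_contra hlt
  rw [not_le] at hlt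
  have hx0 : σ x ≠ 0 := by
    intro h
    rw [h, map_zero] at hlt
    exact absurd hlt (not_lt.2 zero_le)
  have hx : x ≠ 0 := fun h => hx0 (by rw [h, map_zero])
  have hw : x / σ x ∈ A.nonunits := by
    rw [ValuationSubring.mem_nonunits_iff, map_div₀]
    exact (div_lt_one₀ (lt_of_le_of_ne zero_le
      (Ne.symm ((Valuation.ne_zero_iff _).2 hx0)))).2 hlt
  have key : ∀ n : ℕ, 0 < n → x / (σ ^ n) x ∈ A.nonunits := by
    intro n hn
    induction n with
    | zero => exact absurd hn (lt_irrefl 0)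
    | succ k ih =>
      rcases Nat.eq_zero_or_pos k with hk | hk
      · subst hk
        simpa using hw
      · have h1 := ih hk
        have h2 : σ (x / (σ ^ k) x) ∈ A.nonunits := apply_mem_nonunits_of_mem_decomp hσ h1
        have h3 : x / (σ ^ (k + 1)) x = (x / σ x) * σ (x / (σ ^ k) x) := by
          have e1 : (σ ^ (k + 1)) x = σ ((σ ^ k) x) := by
            rw [pow_succ']; rfl
          rw [e1, map_div₀]
          field_simp
        rw [h3]
        exact A.nonunits.mul_mem hw h2
  obtain ⟨n, hn, hfix⟩ := exists_pow_apply_eq_self σ hxa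
  have := key n hn
  rw [hfix, div_self hx, ValuationSubring.mem_nonunits_iff, map_one] at this
  exact lt_irrefl _ this

theorem valuation_apply_eq_of_mem_decomp {A : ValuationSubring L}
    {σ : L ≃ₐ[K] L} (hσ : σ ∈ A.decompositionSubgroup K) {x : L} (hxa : IsAlgebraic K x) :
    A.valuation (σ x) = A.valuation x := by
  apply le_antisymm (valuation_apply_le_of_mem_decomp hσ hxa)
  have h2 : σ⁻¹ ∈ A.decompositionSubgroup K := inv_mem hσ
  have hxa' : IsAlgebraic K (σ x) := by
    obtain ⟨p, hp0, hp⟩ := hxa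
    refine ⟨p, hp0, ?_⟩
    have : Polynomial.aeval (σ x) p = σ (Polynomial.aeval x p) :=
      Polynomial.aeval_algHom_apply (σ : L →ₐ[K] L) x p
    rw [this, hp, map_zero]
  have := valuation_apply_le_of_mem_decomp h2 hxa'
  simpa using this

end inertia

section integers

variable {L : Type*} [Field L]

theorem valuation_intCast_le_one (A : ValuationSubring L) (n : ℤ) : A.valuation (n : L) ≤ 1 :=
  (A.valuation_le_one_iff _).2 (_root_.intCast_mem A n)

theorem valuation_natCast_le_one (A : ValuationSubring L) (n : ℕ) : A.valuation (n : L) ≤ 1 :=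
  (A.valuation_le_one_iff _).2 (_root_.natCast_mem A n)

/-- integers prime to `q` are units of `A` when `q` is a nonunit. -/
theorem valuation_intCast_eq_one {A : ValuationSubring L} {q : ℕ}
    (hq : A.LiesOverPrime q) {n : ℤ} (hn : IsCoprime n (q : ℤ)) :
    A.valuation (n : L) = 1 := by
  obtain ⟨a, b, hab⟩ := hn
  have hqv : A.valuation (q : L) < 1 := A.mem_nonunits_iff.1 hq
  have h1 : (a : L) * (n : L) = 1 - (b : L) * (q : L) := by
    have : ((a * n + b * q : ℤ) : L) = 1 := by rw [hab]; simp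
    push_cast at this
    linear_combination this
  have h2 : A.valuation ((b : L) * (q : L)) < 1 := by
    rw [map_mul]
    calc A.valuation (b : L) * A.valuation (q : L) ≤ 1 * A.valuation (q : L) := by
          gcongr
          exact valuation_intCast_le_one A b
      _ < 1 := by simpa using hqv
  have h3 : A.valuation ((a : L) * (n : L)) = 1 := by
    rw [h1]
    exact Valuation.map_one_sub_of_lt _ h2
  rw [map_mul] at h3
  have ha := valuation_intCast_le_one A a
  have hn := valuation_intCast_le_one A n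
  apply le_antisymm hn
  by_contra hlt
  rw [not_le] at hlt
  have : A.valuation (a : L) * A.valuation (n : L) < 1 := by
    calc A.valuation (a : L) * A.valuation (n : L) ≤ 1 * A.valuation (n : L) := by gcongr
      _ < 1 := by simpa using hlt
  exact absurd h3 (ne_of_lt this)

/-- integers divisible by `q` are nonunits. -/
theorem valuation_intCast_lt_one {A : ValuationSubring L} {q : ℕ}
    (hq : A.LiesOverPrime q) {n : ℤ} (hn : (q : ℤ) ∣ n) :
    A.valuation (n : L) < 1 := by
  obtain ⟨k, rfl⟩ := hn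
  have hqv : A.valuation (q : L) < 1 := A.mem_nonunits_iff.1 hq
  push_cast
  rw [map_mul]
  calc A.valuation (q : L) * A.valuation (k : L) ≤ A.valuation (q : L) * 1 := by
        gcongr
        exact valuation_intCast_le_one A k
    _ < 1 := by simpa using hqv

end integers

section frey

open WeierstrassCurve WeierstrassCurve.Affine
open Fermat.Agent.S05 Fermat.Agent.S05.SameRed

variable (P : FreyPackage)

lemma frey_b_pow : ∃ k : ℤ, k ≠ 0 ∧ P.b ^ P.p = 32 * k := by
  obtain ⟨c, hc⟩ := (ZMod.intCast_zmod_eq_zero_iff_dvd P.b 2).1 P.hb2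
  obtain ⟨d, hd⟩ := Nat.exists_eq_add_of_le P.hp5
  have hb := P.hb0
  have hc0 : c ≠ 0 := by
    rintro rfl
    exact hb (by simpa using hc)
  refine ⟨2 ^ d * c ^ P.p, mul_ne_zero (pow_ne_zero _ two_ne_zero) (pow_ne_zero _ hc0), ?_⟩
  rw [hc, mul_pow]
  nth_rewrite 1 [hd]
  rw [pow_add]
  norm_num
  ring

lemma frey_a_pow : ∃ k : ℤ, P.a ^ P.p = 4 * k + 3 := by
  have h : (((P.a ^ P.p - 3 : ℤ)) : ZMod 4) = 0 := by
    push_cast
    rw [P.ha4]
    have h3 : (3 : ZMod 4) = -1 := by decide
    rw [h3, P.hp_odd.neg_one_pow]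
    ring
  obtain ⟨k, hk⟩ := (ZMod.intCast_zmod_eq_zero_iff_dvd _ 4).1 h
  exact ⟨k, by push_cast at hk; linarith⟩

/-- `a₂` of the Frey curve is an integer. -/
lemma frey_a₂_int : ∃ m : ℤ, P.freyCurve.a₂ = (m : ℚ) := by
  obtain ⟨k, _, hk⟩ := frey_b_pow P
  obtain ⟨k', hk'⟩ := frey_a_pow P
  refine ⟨8 * k - k' - 1, ?_⟩
  have hkq : (P.b : ℚ) ^ P.p = 32 * (k : ℚ) := by exact_mod_cast hk
  have hkq' : (P.a : ℚ) ^ P.p = 4 * (k' : ℚ) + 3 := by exact_mod_cast hk'
  simp only [FreyPackage.freyCurve]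
  rw [hkq, hkq']
  push_cast
  ring

/-- `a₄` of the Frey curve is a nonzero even integer. -/
lemma frey_a₄_int : ∃ m : ℤ, m ≠ 0 ∧ P.freyCurve.a₄ = ((2 * m : ℤ) : ℚ) := by
  obtain ⟨k, hk0, hk⟩ := frey_b_pow P
  refine ⟨-(P.a ^ P.p) * k, mul_ne_zero (neg_ne_zero.mpr (pow_ne_zero _ P.ha0)) hk0, ?_⟩
  have hkq : (P.b : ℚ) ^ P.p = 32 * (k : ℚ) := by exact_mod_cast hk
  simp only [FreyPackage.freyCurve]
  rw [hkq]
  push_cast
  ring

variable {K : Type*} [Field K] [DecidableEq K] [Algebra ℚ K]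

lemma frey_a₁ : (P.freyCurve⁄K).a₁ = 1 := by
  simp [WeierstrassCurve.baseChange, FreyPackage.freyCurve]

lemma frey_a₃ : (P.freyCurve⁄K).a₃ = 0 := by
  simp [WeierstrassCurve.baseChange, FreyPackage.freyCurve]

lemma frey_a₆ : (P.freyCurve⁄K).a₆ = 0 := by
  simp [WeierstrassCurve.baseChange, FreyPackage.freyCurve]

lemma frey_a₂ : ∃ m : ℤ, (P.freyCurve⁄K).a₂ = (m : K) := by
  obtain ⟨m, hm⟩ := frey_a₂_int P
  refine ⟨m, ?_⟩
  simp only [WeierstrassCurve.baseChange, WeierstrassCurve.map_a₂, hm]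
  simp

lemma frey_a₄ : ∃ m : ℤ, m ≠ 0 ∧ (P.freyCurve⁄K).a₄ = ((2 * m : ℤ) : K) := by
  obtain ⟨m, hm0, hm⟩ := frey_a₄_int P
  refine ⟨m, hm0, ?_⟩
  have : CharZero K := algebraRat.charZero K
  simp only [WeierstrassCurve.baseChange, WeierstrassCurve.map_a₄, hm]
  simp

/-- The Frey curve has a node at the origin at every place over `2`. -/
theorem frey_nodeTwo (A : ValuationSubring K) (hA : A.LiesOverPrime 2) :
    NodeTwo (P.freyCurve⁄K) A.valuation := by
  have hchar : CharZero K := algebraRat.charZero K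
  have h2 : A.valuation (2 : K) < 1 := by
    have := A.mem_nonunits_iff.1 hA
    simpa using this
  obtain ⟨m₂, hm₂⟩ := frey_a₂ (K := K) P
  obtain ⟨m₄, hm₄0, hm₄⟩ := frey_a₄ (K := K) P
  have h4 : A.valuation (P.freyCurve⁄K).a₄ < 1 := by
    rw [hm₄]
    exact valuation_intCast_lt_one hA (by push_cast; exact Dvd.intro _ rfl)
  refine
    { int := ⟨?_, ?_, ?_, h4.le, ?_⟩
      a₃ := frey_a₃ P
      a₆ := frey_a₆ P
      a₄ := h4
      a₄_ne := ?_
      a₁ := by rw [frey_a₁, map_one]
      two := h2 }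
  · rw [frey_a₁, map_one]
  · rw [hm₂]; exact valuation_intCast_le_one A m₂
  · rw [frey_a₃, map_zero]; exact zero_le_one
  · rw [frey_a₆, map_zero]; exact zero_le_one
  · rw [hm₄]
    exact Int.cast_ne_zero.mpr (mul_ne_zero two_ne_zero hm₄0)

/-- `p` is a unit at every place over `2`. -/
lemma frey_val_p (A : ValuationSubring K) (hA : A.LiesOverPrime 2) :
    A.valuation ((P.p : ℕ) : K) = 1 := by
  have hodd : Odd ((P.p : ℕ) : ℤ) := by exact_mod_cast P.hp_odd
  have hcop : IsCoprime ((P.p : ℕ) : ℤ) ((2 : ℕ) : ℤ) := by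
    obtain ⟨k, hk⟩ := hodd
    exact ⟨1, -k, by rw [hk]; push_cast; ring⟩
  have := valuation_intCast_eq_one hA hcop
  simpa using this

/-- **S13/T4, general field form.**  Inertia at a place over `2` acts unipotently on the
`p`-torsion of the Frey curve. -/
theorem frey_inertia_two_unipotent (halg : ∀ t : K, IsAlgebraic ℚ t)
    (A : ValuationSubring K) (hA : A.LiesOverPrime 2)
    (σ : K ≃ₐ[ℚ] K) (hσ : σ ∈ A.inertiaSubgroupIn ℚ)
    (x : Submodule.torsionBy ℤ (P.freyCurve⁄K).Point P.p) :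
    σ • (σ • x - x) = σ • x - x := by
  have hN := frey_nodeTwo P A hA
  have hp := frey_val_p P A hA
  have hx : P.p • (x : (P.freyCurve⁄K).Point) = 0 := by
    have := (Submodule.mem_torsionBy_iff _ _).1 x.2
    rwa [natCast_zsmul] at this
  have key := smul_sub_fixed (S := ℚ) hN σ
    (fun t ht => valuation_apply_sub_lt_one hσ ht)
    (fun t => valuation_apply_eq_of_mem_decomp (mem_decomp_of_mem_inertia hσ) (halg t))
    hp (x : (P.freyCurve⁄K).Point) hx
  apply Subtype.ext
  exact key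

end frey

section Qbar

open WeierstrassCurve WeierstrassCurve.Affine

/-- every element of `AlgebraicClosure ℚ` is algebraic over `ℚ` for the default algebra
structure. -/
theorem isAlgebraic_algebraicClosure_rat (x : AlgebraicClosure ℚ) : IsAlgebraic ℚ x := by
  have h : (AlgebraicClosure.instAlgebra ℚ : Algebra ℚ (AlgebraicClosure ℚ)) =
      DivisionRing.toRatAlgebra := Subsingleton.elim _ _
  have hx : @IsAlgebraic ℚ (AlgebraicClosure ℚ) _ _ (AlgebraicClosure.instAlgebra ℚ) x :=
    @Algebra.IsAlgebraic.isAlgebraic ℚ (AlgebraicClosure ℚ) _ _ (AlgebraicClosure.instAlgebra ℚ)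
      (AlgebraicClosure.isAlgebraic ℚ) x
  rw [h] at hx
  exact hx

/-- **S13/T4.**  For every valuation subring `A` of `AlgebraicClosure ℚ` over `2`, inertia acts
unipotently on the `p`-torsion of the Frey curve. -/
theorem frey_inertia_two_unipotent_Qbar [DecidableEq (AlgebraicClosure ℚ)] (P : FreyPackage)
    (A : ValuationSubring (AlgebraicClosure ℚ)) (hA : A.LiesOverPrime 2)
    (σ : AlgebraicClosure ℚ ≃ₐ[ℚ] AlgebraicClosure ℚ) (hσ : σ ∈ A.inertiaSubgroupIn ℚ)
    (x : Submodule.torsionBy ℤ (P.freyCurve⁄(AlgebraicClosure ℚ)).Point P.p) :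
    σ • (σ • x - x) = σ • x - x :=
  frey_inertia_two_unipotent P isAlgebraic_algebraicClosure_rat A hA σ hσ x

end Qbar

end Fermat.Agent.S13.H129
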