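import Fermat.Agent.S05.C1b
import Fermat.Agent.S05.GoodRed
import Fermat.Agent.S05.XId

/-!
# S13, piece T4 (abstract form): inertia acts unipotently on odd torsion at a node in residue
characteristic 2

Setting: `K` a field, `v : Valuation K Γ₀`, `W : y² + a₁xy = x³ + a₂x² + a₄x` (`a₃ = a₆ = 0`)
with `v`-integral coefficients, `v a₁ = 1`, `v a₄ < 1`, `v 2 < 1`.  The reduction has a node at the
origin.  For a torsion point `P` of odd order `n` (so `v n = 1`) and `σ` acting trivially on the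
residue field and preserving `v`, we prove `σ (σ P - P) = σ P - P`.
-/

set_option autoImplicit false
set_option linter.unusedSectionVars false
set_option linter.unusedVariables false

namespace Fermat.Agent.S13.H129

open WeierstrassCurve WeierstrassCurve.Affine
open Fermat.Agent.S05 Fermat.Agent.S05.SameRed

section identities

variable {F : Type*} [Field F] [DecidableEq F] (W : Affine F)

/-- For a curve through the origin with `a₃ = a₆ = 0`, the `x`-coordinate of `P₁ - P₂` satisfies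
`x₁ x₂ (x₁ - x₂)² x(P₁ - P₂) = (y₁ x₂ + y₂ x₁ + a₁ x₁ x₂)²`. -/
lemma addX_sub_formula (h3 : W.a₃ = 0) (h6 : W.a₆ = 0) {x₁ x₂ y₁ y₂ : F}
    (h₁ : W.Equation x₁ y₁) (h₂ : W.Equation x₂ y₂) (hx : x₁ ≠ x₂) :
    x₁ * x₂ * ((x₁ - x₂) ^ 2 * W.addX x₁ x₂ (W.slope x₁ x₂ y₁ (W.negY x₂ y₂))) =
      (y₁ * x₂ + y₂ * x₁ + W.a₁ * x₁ * x₂) ^ 2 := by
  rw [Affine.equation_iff] at h₁ h₂
  rw [h3, h6] at h₁ h₂
  have hd : x₁ - x₂ ≠ 0 := sub_ne_zero.mpr hx
  rw [slope_of_X_ne hx, XId.addX_div W _ _ _ _ hd]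
  simp only [negY, h3]
  linear_combination (x₁ * x₂ - x₂ ^ 2) * h₁ + (x₁ * x₂ - x₁ ^ 2) * h₂

/-- For a curve through the origin with `a₃ = a₆ = 0`, the `x`-coordinate of `P₁ + P₂` satisfies
`x₁ x₂ (x₁ - x₂)² x(P₁ + P₂) = (y₁ x₂ - y₂ x₁)²`. -/
lemma addX_add_formula (h3 : W.a₃ = 0) (h6 : W.a₆ = 0) {x₁ x₂ y₁ y₂ : F}
    (h₁ : W.Equation x₁ y₁) (h₂ : W.Equation x₂ y₂) (hx : x₁ ≠ x₂) :
    x₁ * x₂ * ((x₁ - x₂) ^ 2 * W.addX x₁ x₂ (W.slope x₁ x₂ y₁ y₂)) =
      (y₁ * x₂ - y₂ * x₁) ^ 2 := by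
  rw [Affine.equation_iff] at h₁ h₂
  rw [h3, h6] at h₁ h₂
  have hd : x₁ - x₂ ≠ 0 := sub_ne_zero.mpr hx
  rw [slope_of_X_ne hx, XId.addX_div W _ _ _ _ hd]
  linear_combination (x₁ * x₂ - x₂ ^ 2) * h₁ + (x₁ * x₂ - x₁ ^ 2) * h₂

lemma dblNum_eq (h3 : W.a₃ = 0) (h6 : W.a₆ = 0) (x : F) :
    XId.dblNum W x = (x ^ 2 - W.a₄) ^ 2 := by
  simp only [XId.dblNum, WeierstrassCurve.b₄, WeierstrassCurve.b₆, WeierstrassCurve.b₈, h3, h6]
  ring

lemma dblDen_eq (h3 : W.a₃ = 0) (h6 : W.a₆ = 0) (x : F) :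
    XId.dblDen W x = x * (4 * x ^ 2 + W.b₂ * x + 4 * W.a₄) := by
  simp only [XId.dblDen, WeierstrassCurve.b₂, WeierstrassCurve.b₄, WeierstrassCurve.b₆, h3, h6]
  ring

end identities

section valuation

variable {K : Type*} [Field K] [DecidableEq K]
  {Γ₀ : Type*} [LinearOrderedCommGroupWithZero Γ₀]
  {W : Affine K} {v : Valuation K Γ₀}

/-- Hypotheses: integral model `y² + a₁xy = x³ + a₂x² + a₄x` with a node at the origin in
residue characteristic two. -/
structure NodeTwo (W : Affine K) (v : Valuation K Γ₀) : Prop where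
  int : IntegralCoeffs W v
  a₃ : W.a₃ = 0
  a₆ : W.a₆ = 0
  a₄ : v W.a₄ < 1
  a₄_ne : W.a₄ ≠ 0
  a₁ : v W.a₁ = 1
  two : v 2 < 1

lemma mul_le_mul_l {b c : Γ₀} (h : b ≤ c) (a : Γ₀) : a * b ≤ a * c := by gcongr

lemma mul_le_mul_r {a b : Γ₀} (h : a ≤ b) (c : Γ₀) : a * c ≤ b * c := by gcongr

lemma sq_lt_sq_of_lt {a b : Γ₀} (h : a < b) : a * a < b * b := by
  have hb : 0 < b := lt_of_le_of_lt zero_le h
  calc a * a ≤ a * b := mul_le_mul_l h.le a
    _ < b * b := mul_lt_mul_of_pos_right h hb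

lemma eq_of_sq_eq {a b : Γ₀} (h : a * a = b * b) : a = b := by
  rcases lt_trichotomy a b with hlt | heq | hgt
  · exact absurd h (ne_of_lt (sq_lt_sq_of_lt hlt))
  · exact heq
  · exact absurd h.symm (ne_of_lt (sq_lt_sq_of_lt hgt))

lemma val_four_lt_one (h2 : v (2 : K) < 1) : v (4 : K) < 1 := by
  have : (4 : K) = 2 * 2 := by norm_num
  rw [this]
  exact val_mul_lt_one_left h2 h2.le

namespace NodeTwo

variable (hN : NodeTwo W v)
include hN

lemma val_b₂ : v W.b₂ = 1 := by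
  have h1 : v (W.a₁ ^ 2) = 1 := by rw [map_pow, hN.a₁, one_pow]
  have h2 : v (4 * W.a₂) < 1 := val_mul_lt_one_left (val_four_lt_one hN.two) hN.int.a₂
  simp only [WeierstrassCurve.b₂]
  rw [v.map_add_eq_of_lt_left (by rw [h1]; exact h2), h1]

/-- the inner factor `4x² + b₂x + 4a₄` of `ψ₂²` has the valuation of `x` in the zone
`v a₄ ≤ v x < 1`. -/
lemma val_inner {x : K} (hx0 : x ≠ 0) (hx1 : v x < 1) (hx4 : v W.a₄ ≤ v x) :
    v (4 * x ^ 2 + W.b₂ * x + 4 * W.a₄) = v x := by
  have hvx : 0 < v x := (Valuation.pos_iff v).mpr hx0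
  have h4 := val_four_lt_one hN.two
  have e1 : v (W.b₂ * x) = v x := by rw [map_mul, hN.val_b₂, one_mul]
  have e2 : v (4 * x ^ 2) < v x := by
    have : (4 : K) * x ^ 2 = (4 * x) * x := by ring
    rw [this, map_mul]
    calc v (4 * x) * v x < 1 * v x :=
          mul_lt_mul_of_pos_right (val_mul_lt_one_left h4 hx1.le) hvx
      _ = v x := one_mul _
  have e3 : v (4 * W.a₄) < v x := by
    rw [map_mul]
    calc v 4 * v W.a₄ ≤ v 4 * v x := mul_le_mul_l hx4 _
      _ < 1 * v x := mul_lt_mul_of_pos_right h4 hvx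
      _ = v x := one_mul _
  have e4 : v (4 * x ^ 2 + W.b₂ * x) = v x := by
    rw [v.map_add_eq_of_lt_right (by rw [e1]; exact e2), e1]
  rw [v.map_add_eq_of_lt_left (by rw [e4]; exact e3), e4]

/-- **class C, lower bound**: if `P = (x, y)` and `2P = (x', _)` are both integral and `P` reduces
to the node, then `v a₄ ≤ v x`. -/
lemma val_a₄_le {x x' : K} (hdbl : x' * XId.dblDen W x = XId.dblNum W x)
    (hden : XId.dblDen W x ≠ 0) (hx' : v x' ≤ 1) : v W.a₄ ≤ v x := by
  by_contra hlt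
  rw [not_le] at hlt
  have ha4 : 0 < v W.a₄ := lt_of_le_of_lt zero_le hlt
  have h4 := val_four_lt_one hN.two
  have hx1 : v x < 1 := hlt.trans hN.a₄
  -- numerator
  have hxx : v (x ^ 2) < v W.a₄ := by
    rw [pow_two, map_mul]
    calc v x * v x ≤ v x * 1 := mul_le_mul_l hx1.le _
      _ = v x := mul_one _
      _ < v W.a₄ := hlt
  have hnum : v (XId.dblNum W x) = v W.a₄ * v W.a₄ := by
    rw [dblNum_eq W hN.a₃ hN.a₆, pow_two, map_mul, sub_eq_add_neg,
      v.map_add_eq_of_lt_right (by rw [Valuation.map_neg]; exact hxx), Valuation.map_neg]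
  -- denominator
  have hinner : v (4 * x ^ 2 + W.b₂ * x + 4 * W.a₄) ≤ v W.a₄ := by
    refine (v.map_add _ _).trans (max_le ((v.map_add _ _).trans (max_le ?_ ?_)) ?_)
    · rw [map_mul]
      calc v 4 * v (x ^ 2) ≤ 1 * v (x ^ 2) := mul_le_mul_r h4.le _
        _ = v (x ^ 2) := one_mul _
        _ ≤ v W.a₄ := hxx.le
    · rw [map_mul, hN.val_b₂, one_mul]; exact hlt.le
    · rw [map_mul]
      calc v 4 * v W.a₄ ≤ 1 * v W.a₄ := mul_le_mul_r h4.le _
        _ = v W.a₄ := one_mul _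
  have hdenv : v (XId.dblDen W x) < v W.a₄ * v W.a₄ := by
    rw [dblDen_eq W hN.a₃ hN.a₆, map_mul]
    calc v x * v (4 * x ^ 2 + W.b₂ * x + 4 * W.a₄) ≤ v x * v W.a₄ := mul_le_mul_l hinner _
      _ < v W.a₄ * v W.a₄ := mul_lt_mul_of_pos_right hlt ha4
  have := congrArg v hdbl
  rw [map_mul, hnum] at this
  have h5 : v x' * v (XId.dblDen W x) ≤ v (XId.dblDen W x) := by
    calc v x' * v (XId.dblDen W x) ≤ 1 * v (XId.dblDen W x) := mul_le_mul_r hx' _
      _ = _ := one_mul _
  rw [this] at h5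
  exact absurd hdenv (not_lt.mpr h5)

/-- In the zone `v a₄ ≤ v x < 1`, `η = 2y + a₁x` has the valuation of `x`. -/
lemma val_eta {x y : K} (h : W.Equation x y) (hx0 : x ≠ 0) (hx1 : v x < 1)
    (hx4 : v W.a₄ ≤ v x) : v (2 * y + W.a₁ * x) = v x := by
  have e := XId.sub_negY_sq W h
  rw [dblDen_eq W hN.a₃ hN.a₆] at e
  have e' : (2 * y + W.a₁ * x) ^ 2 = x * (4 * x ^ 2 + W.b₂ * x + 4 * W.a₄) := by
    rw [← e]; simp only [negY, hN.a₃]; ring
  have := congrArg v e'
  rw [pow_two, map_mul, map_mul, hN.val_inner hx0 hx1 hx4] at this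
  exact eq_of_sq_eq this

/-- In the zone `v a₄ ≤ v x ≤ 1`, `y / x` is integral: `v y ≤ v x`. -/
lemma val_y_le_val_x {x y : K} (h : W.Equation x y) (hx1 : v x ≤ 1)
    (hx4 : v W.a₄ ≤ v x) : v y ≤ v x := by
  by_contra hlt
  rw [not_le] at hlt
  have e := (Affine.equation_iff x y).mp h
  rw [hN.a₃, hN.a₆] at e
  have e' : y * (y + W.a₁ * x) = x * (x ^ 2 + W.a₂ * x + W.a₄) := by linear_combination e
  have h1 : v (y + W.a₁ * x) = v y := by
    apply v.map_add_eq_of_lt_left
    rw [map_mul, hN.a₁, one_mul]; exact hlt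
  have h2 : v (x ^ 2 + W.a₂ * x + W.a₄) ≤ v x := by
    refine (v.map_add _ _).trans (max_le ((v.map_add _ _).trans (max_le ?_ ?_)) hx4)
    · rw [pow_two, map_mul]
      calc v x * v x ≤ v x * 1 := mul_le_mul_l hx1 _
        _ = v x := mul_one _
    · rw [map_mul]
      calc v W.a₂ * v x ≤ 1 * v x := mul_le_mul_r hN.int.a₂ _
        _ = v x := one_mul _
  have := congrArg v e'
  rw [map_mul, map_mul, h1] at this
  have h3 : v y * v y ≤ v x * v x := by
    rw [this]; exact mul_le_mul_l h2 _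
  exact absurd (sq_lt_sq_of_lt hlt) (not_lt.mpr h3)

end NodeTwo

end valuation

section galois

variable {R S K : Type*} [CommRing R] [CommRing S] [Field K] [DecidableEq K]
  [Algebra R S] [Algebra R K] [Algebra S K] [IsScalarTower R S K]
  {Γ₀ : Type*} [LinearOrderedCommGroupWithZero Γ₀]
  {W' : Affine R} {v : Valuation K Γ₀}

/-- a `v`-unit natural number is odd in residue characteristic two. -/
lemma odd_of_val_eq_one (h2 : v (2 : K) < 1) {n : ℕ} (hn : v (n : K) = 1) : Odd n := by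
  rcases Nat.even_or_odd n with he | ho
  · exfalso
    obtain ⟨k, rfl⟩ := he
    have : ((k + k : ℕ) : K) = 2 * (k : K) := by push_cast; ring
    rw [this] at hn
    exact absurd hn (ne_of_lt (val_mul_lt_one_left h2 (val_natCast_le_one k)))
  · exact ho

/-- odd torsion points are not killed by `2`. -/
lemma add_self_ne_zero_of_odd {G : Type*} [AddCommGroup G] {n : ℕ} (hodd : Odd n) {P : G}
    (hP : n • P = 0) (hP0 : P ≠ 0) : P + P ≠ 0 := by
  intro h
  obtain ⟨k, rfl⟩ := hodd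
  apply hP0
  have : (2 * k + 1) • P = k • (P + P) + P := by
    rw [add_smul, one_smul, mul_comm, mul_smul, two_smul]
  rw [this, h, smul_zero, zero_add] at hP
  exact hP

lemma nsmul_algEquiv_smul (σ : K ≃ₐ[S] K) (n : ℕ) (P : (W'⁄K).Point) :
    n • (σ • P) = σ • (n • P) := by
  have := Point.algEquiv_smul_zsmul σ (n : ℤ) P
  rw [natCast_zsmul, natCast_zsmul] at this
  exact this.symm

/-- **Unit case**: in residue characteristic two, with `v a₁ = 1` and `a₃ = 0`, a torsion point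
with unit `x`-coordinate has nonsingular reduction, hence is fixed by inertia. -/
theorem smul_eq_self_of_val_x_eq_one (hN : NodeTwo (W'⁄K) v)
    (σ : K ≃ₐ[S] K) (hσ : ∀ t : K, v t ≤ 1 → v (σ t - t) < 1) {n : ℕ} (hn : v (n : K) = 1)
    {x y : K} (h : (W'⁄K).Nonsingular x y) (hx : v x = 1)
    (hP : n • Point.some x y h = 0) :
    σ • Point.some x y h = Point.some x y h := by
  have hy : v y ≤ 1 := GoodRed.val_y_le_one hN.int h.1 hx.le
  refine GoodRed.smul_eq_self_of_nonsingular_reduction hN.int σ hσ (n : ℤ)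
    (fun Q hQ hnQ => C1b.eq_zero_of_inKer_of_zsmul_eq_zero hN.int n hn Q hQ hnQ) h hx.le
    (Or.inr ?_) (by rwa [natCast_zsmul])
  rw [hN.a₃, add_zero]
  have h1 : v ((W'⁄K).a₁ * x) = 1 := by rw [map_mul, hN.a₁, hx, one_mul]
  have h2 : v (2 * y) < 1 := val_mul_lt_one_left hN.two hy
  rw [v.map_add_eq_of_lt_right (by rw [h1]; exact h2), h1]

/-- **T4, abstract form.** At a node at the origin in residue characteristic two, an
automorphism `σ` acting trivially on the residue field and preserving the valuation satisfies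
`σ (σ P - P) = σ P - P` for every torsion point `P` of `v`-unit order. -/
theorem smul_sub_fixed (hN : NodeTwo (W'⁄K) v)
    (σ : K ≃ₐ[S] K) (hσ : ∀ t : K, v t ≤ 1 → v (σ t - t) < 1) (hσv : ∀ t : K, v (σ t) = v t)
    {n : ℕ} (hn : v (n : K) = 1) (P : (W'⁄K).Point) (hP : n • P = 0) :
    σ • (σ • P - P) = σ • P - P := by
  have hodd : Odd n := odd_of_val_eq_one hN.two hn
  rcases P with _ | ⟨x, y, h⟩
  · have h0 : σ • (0 : (W'⁄K).Point) = 0 := smul_zero σ
    change σ • (σ • (0 : (W'⁄K).Point) - 0) = σ • (0 : (W'⁄K).Point) - 0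
    rw [h0, sub_zero, h0]
  have hxy := C1b.val_x_le_one_of_nsmul_eq_zero hN.int hn h hP
  -- `Q = σ P - P` is `n`-torsion
  have hQ : n • (σ • Point.some x y h - Point.some x y h) = 0 := by
    rw [smul_sub, nsmul_algEquiv_smul, hP, smul_zero, sub_zero]
  -- it suffices to show `Q = 0` or `Q` has unit `x`-coordinate
  suffices hsuff : σ • Point.some x y h - Point.some x y h = 0 ∨
      ∃ (xq yq : K) (hq : (W'⁄K).Nonsingular xq yq),
        σ • Point.some x y h - Point.some x y h = Point.some xq yq hq ∧ v xq = 1 by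
    rcases hsuff with h0 | ⟨xq, yq, hq, hQe, hxq⟩
    · rw [h0]; exact smul_zero σ
    · rw [hQe] at hQ ⊢
      exact smul_eq_self_of_val_x_eq_one hN σ hσ hn hq hxq hQ
  rcases lt_or_eq_of_le hxy.1 with hx1 | hx1
  swap
  · left
    rw [smul_eq_self_of_val_x_eq_one hN σ hσ hn h hx1 hP, sub_self]
  -- now `v x < 1`: the point reduces to the node
  -- `2P ≠ 0`
  have h2P : Point.some x y h + Point.some x y h ≠ 0 :=
    add_self_ne_zero_of_odd hodd hP (Point.some_ne_zero h)
  have hyne : y ≠ (W'⁄K).negY x y := by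
    intro hy
    exact h2P (Point.add_self_of_Y_eq hy)
  obtain ⟨x', y', h', hdbl, hdblx, hden⟩ := XId.add_self_some h hyne
  have h2Pn : n • Point.some x' y' h' = 0 := by
    rw [← hdbl, smul_add, hP, add_zero]
  have hx' := (C1b.val_x_le_one_of_nsmul_eq_zero hN.int hn h' h2Pn).1
  have hx4 : v (W'⁄K).a₄ ≤ v x := hN.val_a₄_le hdblx hden hx'
  have hx0 : x ≠ 0 := by
    intro hx0
    rw [hx0, map_zero] at hx4
    exact hN.a₄_ne ((Valuation.zero_iff v).mp (le_antisymm hx4 zero_le))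
  have hvx : 0 < v x := (Valuation.pos_iff v).mpr hx0
  have heta : v (2 * y + (W'⁄K).a₁ * x) = v x := hN.val_eta h.1 hx0 hx1 hx4
  have hyx : v y ≤ v x := hN.val_y_le_val_x h.1 hx1.le hx4
  -- `g = y / x` is integral
  have hg : v (y / x) ≤ 1 := by
    rw [map_div₀]; exact (div_le_one₀ hvx).mpr hyx
  have hσg := hσ (y / x) hg
  have hσx0 : σ x ≠ 0 := by
    intro h0
    exact hx0 (by simpa using h0)
  have h2g : v (2 * (y / x) + (W'⁄K).a₁) = 1 := by
    have : 2 * (y / x) + (W'⁄K).a₁ = (2 * y + (W'⁄K).a₁ * x) / x := by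
      field_simp
    rw [this, map_div₀, heta, div_self (ne_of_gt hvx)]
  -- the image point
  have hσns : (W'⁄K).Nonsingular (σ x) (σ y) :=
    (W'.baseChange_nonsingular σ.toAlgHom.injective x y).mpr h
  have hσP : σ • Point.some x y h = Point.some (σ x) (σ y) hσns := GoodRed.smul_some σ h
  by_cases hxe : σ x = x
  · -- same `x`-coordinate
    rcases Affine.Y_eq_of_X_eq hσns.1 h.1 hxe with hye | hye
    · left
      rw [hσP, sub_eq_zero]
      simp only [Point.some.injEq]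
      exact ⟨hxe, hye⟩
    · exfalso
      have hneg : σ y = -y - (W'⁄K).a₁ * x := by
        rw [hye]; simp only [negY, hN.a₃]; ring
      have : σ (y / x) - y / x = -(2 * (y / x) + (W'⁄K).a₁) := by
        rw [map_div₀, hxe, hneg]
        field_simp
        ring
      rw [this, Valuation.map_neg, h2g] at hσg
      exact lt_irrefl _ hσg
  · -- different `x`-coordinates
    right
    have hns' : (W'⁄K).Nonsingular x ((W'⁄K).negY x y) := (nonsingular_neg ..).mpr h
    refine ⟨_, _, nonsingular_add hσns hns' fun hxy => hxe hxy.left, ?_, ?_⟩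
    · rw [hσP, sub_eq_add_neg, Point.neg_some, Point.add_of_X_ne hxe]
    · set xq := (W'⁄K).addX (σ x) x ((W'⁄K).slope (σ x) x (σ y) ((W'⁄K).negY x y)) with hxq
      have hform := addX_sub_formula (W'⁄K) hN.a₃ hN.a₆ hσns.1 h.1 hxe
      rw [← hxq] at hform
      -- `Q` is integral
      have hQ' : n • Point.some xq _ (nonsingular_add hσns hns' fun hxy => hxe hxy.left) = 0 := by
        rw [← hQ, hσP, sub_eq_add_neg, Point.neg_some, Point.add_of_X_ne hxe]
      have hxq1 := (C1b.val_x_le_one_of_nsmul_eq_zero hN.int hn _ hQ').1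
      refine le_antisymm hxq1 ?_
      -- the right-hand side
      have hrhs : σ y * x + y * σ x + (W'⁄K).a₁ * σ x * x =
          σ x * x * ((σ (y / x) - y / x) + (2 * (y / x) + (W'⁄K).a₁)) := by
        rw [map_div₀]
        field_simp
        ring
      have hsum : v ((σ (y / x) - y / x) + (2 * (y / x) + (W'⁄K).a₁)) = 1 := by
        rw [v.map_add_eq_of_lt_right (by rw [h2g]; exact hσg), h2g]
      rw [hrhs] at hform
      have hval := congrArg v hform
      simp only [map_mul, map_pow] at hval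
      rw [hsum, hσv x, mul_one] at hval
      -- `v (σ x - x) ≤ v x`
      have hd : v (σ x - x) ≤ v x := by
        refine (v.map_sub _ _).trans (max_le ?_ le_rfl)
        rw [hσv x]
      have hvxx : 0 < v x * v x := mul_pos hvx hvx
      have hle : (v x * v x) * (v x * v x) * 1 ≤ (v x * v x) * (v x * v x) * v xq := by
        calc (v x * v x) * (v x * v x) * 1 = (v x * v x) ^ 2 := by rw [mul_one, pow_two]
          _ = v x * v x * (v (σ x - x) ^ 2 * v xq) := hval.symm
          _ ≤ v x * v x * (v x ^ 2 * v xq) := by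
              have h1 : v (σ x - x) ^ 2 ≤ v x ^ 2 := pow_le_pow_left₀ zero_le hd 2
              exact mul_le_mul_l (mul_le_mul_r h1 _) _
          _ = (v x * v x) * (v x * v x) * v xq := by rw [pow_two]; simp only [mul_assoc]
      exact le_of_mul_le_mul_left hle (mul_pos hvxx hvxx)

end galois

end Fermat.Agent.S13.H129
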